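import Fermat.Agent.CallSilverman.Limit
import Fermat.Agent.NeronSpecialisation.GeneralSpec
import Fermat.Agent.EC.TorsionCard
import Fermat.Agent.Height.NeronTate
import Fermat.Agent.Root.SummaryMordellWeilNumberField
import Mathlib.NumberTheory.Height.NumberField
import Mathlib.LinearAlgebra.Matrix.ToLinearEquiv

/-!
# Silverman's specialisation theorem

For an equation over `K[T]` and a point over `K(T)` the Néron–Tate height of the specialisation,
divided by `h (t)`, tends to the height of the point. So points with nondegenerate height pairing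
stay independent for all but finitely many parameters.
-/

set_option autoImplicit false
set_option linter.style.haveILetI false
set_option linter.unusedSectionVars false

noncomputable section

open WeierstrassCurve Polynomial OnePoint Height Filter Topology
open FA.ArithmeticDynamics
open FA.NeronSpecialisation (genW fibreW specW valueRing genW_isElliptic fibreW_isElliptic)
open scoped Classical

namespace FA.CallSilverman

section General

variable {L : Type*} [Field L] {E : WeierstrassCurve L} [E.IsElliptic]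

/-- The abscissa of a point. -/
def xPt (P : E.toAffine.Point) : OnePoint L := toPoint P.xRep

theorem xPt_zero : xPt (0 : E.toAffine.Point) = ∞ := by simp [xPt, toPoint]

theorem xPt_some {x y : L} (h : E.toAffine.Nonsingular x y) : xPt (.some x y h) = (x : OnePoint L) := by
  simp [xPt, toPoint]

theorem degree_double : degree (E.Φ 2) (E.ΨSq 2) = 4 := by
  rw [FA.ArithmeticDynamics.degree, natDegree_Φ, max_eq_left]
  · rfl
  · exact (natDegree_ΨSq_le _ _).trans (by norm_num)

theorem isCoprime_double : IsCoprime (E.Φ 2) (E.ΨSq 2) := by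
  refine (isCoprime_iff_aeval_ne_zero_of_isAlgClosed L (AlgebraicClosure L) _ _).2 fun r => ?_
  by_contra hcon
  push Not at hcon
  refine FA.EC.numDen_ne_zero (E.map (algebraMap L (AlgebraicClosure L))) 2 r (funext fun i => ?_)
  fin_cases i
  · simpa only [FA.EC.numDen, map_Φ, eval_map, ← aeval_def, Fin.isValue, Fin.zero_eta,
      Matrix.cons_val_zero, Pi.zero_apply] using hcon.1
  · simpa only [FA.EC.numDen, map_ΨSq, eval_map, ← aeval_def, Fin.isValue, Fin.mk_one,
      Matrix.cons_val_one, Matrix.cons_val_fin_one, Pi.zero_apply] using hcon.2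

theorem xPt_double (P : E.toAffine.Point) : xPt (2 • P) = ratApply (E.Φ 2) (E.ΨSq 2) (xPt P) := by
  rcases P with _ | ⟨a, b, h⟩
  · have hc : (E.ΨSq 2).coeff 4 = 0 :=
      coeff_eq_zero_of_natDegree_lt ((natDegree_ΨSq_le _ _).trans_lt (by norm_num))
    show xPt (2 • (0 : E.toAffine.Point)) = ratApply _ _ (xPt (0 : E.toAffine.Point))
    rw [nsmul_zero, xPt_zero, ratApply_infty, degree_double, if_pos hc]
  · obtain ⟨u, hu, hk⟩ := FA.EC.exists_smul_xRep_nsmul h 2
    rw [xPt_some, xPt, ← toPoint_smul hu, ← hk, ratApply, rep_coe,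
      form_coe _ (natDegree_left_le _ _), form_coe _ (natDegree_right_le _ _)]
    rfl

theorem xPt_iterate (P : E.toAffine.Point) (k : ℕ) :
    xPt ((2 ^ k) • P) = (ratApply (E.Φ 2) (E.ΨSq 2))^[k] (xPt P) := by
  induction k with
  | zero => simp
  | succ k ih => rw [Function.iterate_succ_apply', pow_succ', mul_nsmul', xPt_double, ih]

variable [AdmissibleAbsValues L]

/-- The canonical height on the points by the doubling map of the abscissa. -/
def dblHgt (P : E.toAffine.Point) : ℝ := canonicalHeight (E.Φ 2) (E.ΨSq 2) (xPt P)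

theorem dblHgt_double (P : E.toAffine.Point) : dblHgt (2 • P) = 4 * dblHgt P := by
  rw [dblHgt, xPt_double, canonicalHeight_ratApply isCoprime_double (by rw [degree_double]; norm_num),
    degree_double, dblHgt]
  norm_num

theorem exists_dblHgt_bound :
    ∃ C, ∀ P : E.toAffine.Point, |dblHgt P - logHeight P.xRep| ≤ C := by
  obtain ⟨C, hC⟩ := exists_tendsto_canonicalHeight (isCoprime_double (E := E))
    (by rw [degree_double]; norm_num)
  refine ⟨C, fun P => ?_⟩
  obtain ⟨c, hc, he⟩ := exists_smul_rep (Affine.Point.xRep_ne_zero P)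
  have h := (hC (xPt P)).2
  rwa [pointHeight, xPt, he, logHeight_smul_eq_logHeight _ hc] at h

/-- It is the only height with these two properties. -/
theorem eq_dblHgt {f : E.toAffine.Point → ℝ} (hf : ∃ C, ∀ P, |f P - logHeight P.xRep| ≤ C)
    (h2 : ∀ P, f (2 • P) = 4 * f P) (P : E.toAffine.Point) : f P = dblHgt P := by
  obtain ⟨C, hC⟩ := exists_dblHgt_bound (E := E)
  obtain ⟨D, hD⟩ := hf
  exact congrFun (FA.Height.eq_of_bounded hD hC h2 dblHgt_double) P

end General

section NumberFields

variable {K : Type*} [Field K] [NumberField K] {E : WeierstrassCurve K} [E.IsElliptic]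

theorem dblHgt_parallelogram (P Q : E.toAffine.Point) :
    dblHgt (P + Q) + dblHgt (P - Q) = 2 * (dblHgt P + dblHgt Q) := by
  obtain ⟨C, hC⟩ := FA.MordellWeilNF.exists_parallelogram E
  obtain ⟨g, hD, hg2, hpar, -⟩ :=
    FA.Height.exists_quadratic (h := fun P : E.toAffine.Point => logHeight P.xRep) hC
  rw [← eq_dblHgt hD hg2, ← eq_dblHgt hD hg2, ← eq_dblHgt hD hg2, ← eq_dblHgt hD hg2]
  exact hpar P Q

variable {W : WeierstrassCurve K[X]}

/-- The height of the specialisation at `t` of a point. -/
def hgtAt (W : WeierstrassCurve K[X]) (t : K) (P : (genW W).toAffine.Point) : ℝ :=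
  canonicalHeight ((fibreW W t).Φ 2) ((fibreW W t).ΨSq 2) (specPt t (toPoint P.xRep))

/-- The height of a point over `K(T)`. -/
def genHgt (W : WeierstrassCurve K[X]) (P : (genW W).toAffine.Point) : ℝ :=
  limUnder atTop fun k : ℕ => (ptDeg (toPoint ((2 ^ k) • P).xRep) : ℝ) / (4 : ℝ) ^ k

/-- **Silverman's specialisation theorem**, the limit. -/
theorem tendsto_hgtAt (hW : W.Δ ≠ 0) (P : (genW W).toAffine.Point) :
    Tendsto (fun k : ℕ => (ptDeg (toPoint ((2 ^ k) • P).xRep) : ℝ) / (4 : ℝ) ^ k) atTop
        (𝓝 (genHgt W P)) ∧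
      Tendsto (fun t : K => hgtAt W t P / pointHeight (t : OnePoint K)) cofinite
        (𝓝 (genHgt W P)) := by
  haveI := genW_isElliptic hW
  set g := algebraMap K[X] (RatFunc K)
  have eΦ : (W.Φ 2).map g = (genW W).Φ 2 := (map_Φ W g 2).symm
  have eΨ : (W.ΨSq 2).map g = (genW W).ΨSq 2 := (map_ΨSq W g 2).symm
  obtain ⟨l, h1, h2⟩ := exists_limit (P := W.Φ 2) (Q := W.ΨSq 2)
    (by rw [eΦ, eΨ]; exact isCoprime_double) (by rw [eΦ, eΨ, degree_double]; norm_num)
    (toPoint P.xRep)
  rw [eΦ, eΨ] at h1
  rw [degree_double, Nat.cast_ofNat] at h1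
  have hit : ∀ k : ℕ, (ratApply ((genW W).Φ 2) ((genW W).ΨSq 2))^[k] (toPoint P.xRep) =
      toPoint ((2 ^ k) • P).xRep := fun k => (xPt_iterate P k).symm
  simp only [hit] at h1
  have hl : genHgt W P = l := h1.limUnder_eq
  refine ⟨hl ▸ h1, hl ▸ h2.congr fun t => ?_⟩
  rw [hgtAt, show (fibreW W t).Φ 2 = specT t (W.Φ 2) from map_Φ W (evalRingHom t) 2,
    show (fibreW W t).ΨSq 2 = specT t (W.ΨSq 2) from map_ΨSq W (evalRingHom t) 2]

theorem xPt_specW {t : K} (ht : (fibreW W t).Δ ≠ 0) (P : (genW W).toAffine.Point) :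
    toPoint (specW W ht P).xRep = specPt t (toPoint P.xRep) := by
  rcases P with _ | ⟨x, y, h⟩
  · show toPoint (specW W ht 0).xRep =
      specPt t (toPoint (0 : (genW W).toAffine.Point).xRep)
    rw [map_zero, Affine.Point.xRep_zero, Affine.Point.xRep_zero]
    simp [toPoint, specPt_infty]
  · rw [Affine.Point.xRep_some, show toPoint ![x, (1 : RatFunc K)] = ↑x by simp [toPoint],
      specPt_coe]
    by_cases hx : x ∈ valueRing t
    · obtain ⟨hy, h', e⟩ := FA.NeronSpecialisation.specW_some_of_mem ht h hx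
      rw [e, Affine.Point.xRep_some]
      have hx' : x.denom.eval t ≠ 0 := hx
      simp only [toPoint, Matrix.cons_val_one, Matrix.cons_val_zero, Matrix.cons_val_fin_one,
        one_ne_zero, if_false, if_neg hx', div_one]
      rfl
    · rw [FA.NeronSpecialisation.specW_some_of_notMem ht h hx, Affine.Point.xRep_zero]
      have hx' : x.denom.eval t = 0 := not_not.1 hx
      simp [toPoint, hx']

/-- At a smooth fibre it is the Néron–Tate height of the specialisation. -/
theorem hgtAt_eq {t : K} (ht : (fibreW W t).Δ ≠ 0) {f : (fibreW W t).toAffine.Point → ℝ}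
    (hf : ∃ C, ∀ R, |f R - logHeight R.xRep| ≤ C) (h2 : ∀ R, f (2 • R) = 4 * f R)
    (P : (genW W).toAffine.Point) : f (specW W ht P) = hgtAt W t P := by
  haveI := fibreW_isElliptic ht
  rw [eq_dblHgt hf h2, dblHgt, xPt, xPt_specW, hgtAt]

theorem finite_bad_fibres (hW : W.Δ ≠ 0) : {t : K | (fibreW W t).Δ = 0}.Finite :=
  (finite_setOfPred_isRoot hW).subset fun t ht => by
    have h : (fibreW W t).Δ = 0 := ht
    rw [fibreW, WeierstrassCurve.map_Δ] at h
    exact h

/-- The parallelogram law over `K(T)`. -/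
theorem genHgt_parallelogram (hW : W.Δ ≠ 0) (P Q : (genW W).toAffine.Point) :
    genHgt W (P + Q) + genHgt W (P - Q) = 2 * (genHgt W P + genHgt W Q) := by
  refine tendsto_nhds_unique
    ((tendsto_hgtAt hW (P + Q)).2.add (tendsto_hgtAt hW (P - Q)).2)
    ((((tendsto_hgtAt hW P).2.add (tendsto_hgtAt hW Q).2).const_mul 2).congr' ?_)
  filter_upwards [(finite_bad_fibres hW).eventually_cofinite_notMem] with t ht
  have ht' : (fibreW W t).Δ ≠ 0 := ht
  haveI := fibreW_isElliptic ht'
  have e : ∀ R, hgtAt W t R = dblHgt (specW W ht' R) := fun R =>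
    (hgtAt_eq ht' exists_dblHgt_bound dblHgt_double R).symm
  simp only [e, map_add, map_sub]
  rw [← add_div, ← add_div, dblHgt_parallelogram]
  ring

/-- The height pairing over `K(T)`. -/
def genPairing (W : WeierstrassCurve K[X]) (P Q : (genW W).toAffine.Point) : ℝ :=
  (genHgt W (P + Q) - genHgt W P - genHgt W Q) / 2

/-- **Independence at all but finitely many parameters.** -/
theorem finite_dependent_specW (hW : W.Δ ≠ 0) {n : ℕ} (P : Fin n → (genW W).toAffine.Point)
    (hdet : (Matrix.of fun i j => genPairing W (P i) (P j)).det ≠ 0) :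
    {t : K | ∃ ht : (fibreW W t).Δ ≠ 0,
      ¬LinearIndependent ℤ fun i => specW W ht (P i)}.Finite := by
  set M : K → Matrix (Fin n) (Fin n) ℝ := fun t => Matrix.of fun i j =>
    (hgtAt W t (P i + P j) / pointHeight (t : OnePoint K) -
      hgtAt W t (P i) / pointHeight (t : OnePoint K) -
      hgtAt W t (P j) / pointHeight (t : OnePoint K)) / 2
  have hM : Tendsto M cofinite (𝓝 (Matrix.of fun i j => genPairing W (P i) (P j))) :=
    tendsto_pi_nhds.2 fun i => tendsto_pi_nhds.2 fun j =>
      (((tendsto_hgtAt hW (P i + P j)).2.sub (tendsto_hgtAt hW (P i)).2).sub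
        (tendsto_hgtAt hW (P j)).2).div_const 2
  have hev := ((continuous_id.matrix_det.tendsto _).comp hM).eventually_ne hdet
  refine (eventually_cofinite.1 hev).subset ?_
  rintro t ⟨ht, hli⟩ hne
  haveI := fibreW_isElliptic ht
  obtain ⟨m, hm, i₀, hi₀⟩ := Fintype.not_linearIndependent_iff.1 hli
  refine hne (Matrix.exists_vecMul_eq_zero_iff.1 ⟨fun i => (m i : ℝ),
    fun h => hi₀ (Int.cast_eq_zero.1 (congrFun h i₀)), funext fun j => ?_⟩)
  have e : ∀ R, hgtAt W t R = dblHgt (specW W ht R) := fun R =>
    (hgtAt_eq ht exists_dblHgt_bound dblHgt_double R).symm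
  have h0 := congrArg (FA.Height.pairingHom dblHgt_parallelogram (specW W ht (P j))) hm
  rw [map_sum, map_zero] at h0
  simp only [map_zsmul, zsmul_eq_mul] at h0
  show ∑ i, (m i : ℝ) * M t i j = 0
  have hp : ∀ i, M t i j = FA.Height.pairing dblHgt (specW W ht (P i)) (specW W ht (P j)) /
      pointHeight (t : OnePoint K) := fun i => by
    simp only [M, Matrix.of_apply, e, map_add, FA.Height.pairing]
    ring
  simp only [hp, mul_div_assoc', ← Finset.sum_div]
  rw [div_eq_zero_iff]
  exact Or.inl h0

end NumberFields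

end FA.CallSilverman
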