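import Fermat.Agent.CallSilverman.Elliptic
import Fermat.Agent.TwistCount.Specialise
import Fermat.Agent.NeronSpecialisation.Main

/-!
# A nondegenerate height pairing

On the twist of `y² = x³ + A x + B` by the twisting polynomial the two points of the family have
heights at least `4` and their sum and difference at most `12`, so the pairing is nondegenerate.
-/

set_option autoImplicit false
set_option linter.style.haveILetI false
set_option linter.unusedSectionVars false

noncomputable section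

open WeierstrassCurve Polynomial OnePoint Height Filter Topology
open FA.ArithmeticDynamics FA.TwistRankTwo FA.TwistCount
open FA.NeronSpecialisation (genW fibreW specW valueRing genW_isElliptic fibreW_isElliptic valueAt)
open scoped Classical

attribute [local instance 2000] FA.NeronSpecialisation.ratDecEq

namespace FA.CallSilverman

variable {A B : ℚ}

theorem fibreW_twistW_eq (t : ℚ) :
    fibreW (twistW A B) t = twistedCurve A B ((twistPoly A B).eval t) := by
  ext <;> simp [fibreW, twistW, twistedCurve, WeierstrassCurve.map]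

/-- The height on a twist is that of the abscissa divided by the twisting number. -/
theorem dblHgt_twisted (hd : 4 * A ^ 3 + 27 * B ^ 2 ≠ 0) {D : ℚ} (hD : D ≠ 0) {x y : ℚ}
    (h : (twistedCurve A B D).toAffine.Nonsingular x y) :
    haveI := twistedCurve_isElliptic hd hD
    dblHgt (Affine.Point.some x y h) = absHgt (baseCurve A B) ((x / D : ℚ) : OnePoint ℚ) := by
  haveI := twistedCurve_isElliptic hd hD
  haveI := baseCurve_isElliptic hd
  obtain ⟨ι, hι⟩ := exists_untwist hd hD
  set sc : OnePoint ℚ → OnePoint ℚ := fun z => z.elim ∞ fun w => ((w / D : ℚ) : OnePoint ℚ)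
  have habs : ∀ R : (twistedCurve A B D).toAffine.Point, HasAbs (ι R) (sc (toPoint R.xRep)) := by
    rintro (_ | ⟨u, w, h'⟩)
    · show HasAbs (ι 0) (sc (toPoint (0 : (twistedCurve A B D).toAffine.Point).xRep))
      rw [map_zero, Affine.Point.xRep_zero, show toPoint ![(1 : ℚ), 0] = ∞ by simp [toPoint]]
      exact hasAbs_zero
    · rw [Affine.Point.xRep_some, show toPoint ![u, (1 : ℚ)] = ↑u by simp [toPoint]]
      exact hι u w h'
  set g : (twistedCurve A B D).toAffine.Point → ℝ := fun R =>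
    absHgt (baseCurve A B) (sc (toPoint R.xRep))
  have g2 : ∀ R, g (2 • R) = 4 * g R := fun R => by
    have h2 := habs (2 • R)
    rw [map_nsmul] at h2
    have h4 := absHgt_nsmul two_ne_zero (habs R) h2
    rw [show ((2 : ℕ) : ℝ) ^ 2 = 4 by norm_num] at h4
    exact h4
  obtain ⟨C, hC⟩ := exists_absHgt_bound (E := baseCurve A B)
  have gb : ∃ C', ∀ R, |g R - logHeight R.xRep| ≤ C' := by
    refine ⟨C + logHeight₁ D + |pointHeight (∞ : OnePoint ℚ)|, ?_⟩
    have hD0 : 0 ≤ logHeight₁ D := zero_le_logHeight₁ D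
    rintro (_ | ⟨u, w, h'⟩)
    · show |g 0 - logHeight (0 : (twistedCurve A B D).toAffine.Point).xRep| ≤ _
      have h1 := hC (∞ : OnePoint ℚ)
      simp only [g, Affine.Point.xRep_zero, show toPoint ![(1 : ℚ), 0] = ∞ by simp [toPoint]]
      show |absHgt (baseCurve A B) ∞ - pointHeight (∞ : OnePoint ℚ)| ≤ _
      linarith [abs_nonneg (pointHeight (∞ : OnePoint ℚ))]
    · have h1 := abs_le.1 (hC ((u / D : ℚ) : OnePoint ℚ))
      rw [pointHeight_coe] at h1
      simp only [g, Affine.Point.xRep_some, show toPoint ![u, (1 : ℚ)] = ↑u by simp [toPoint],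
        ← logHeight₁_eq_logHeight]
      show |absHgt (baseCurve A B) ((u / D : ℚ) : OnePoint ℚ) - logHeight₁ u| ≤ _
      have h2 := logHeight₁_mul_le (u / D) D
      have h3 := logHeight₁_mul_le u D⁻¹
      rw [div_mul_cancel₀ _ hD] at h2
      rw [logHeight₁_inv, ← div_eq_mul_inv] at h3
      rw [abs_le]
      constructor <;> linarith [abs_nonneg (pointHeight (∞ : OnePoint ℚ))]
  have h' := eq_dblHgt gb g2 (.some x y h)
  rw [← h']
  simp only [g, Affine.Point.xRep_some, show toPoint ![x, (1 : ℚ)] = ↑x by simp [toPoint]]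
  rfl

/-- The first point over `ℚ(w)`. -/
def pointP (hA : A ≠ 0) (hB : B ≠ 0) (hd : 4 * A ^ 3 + 27 * B ^ 2 ≠ 0) :
    (genW (twistW A B)).toAffine.Point :=
  haveI := genW_isElliptic (twistW_Δ_ne hA hB hd)
  .some _ _ (Affine.equation_iff_nonsingular.mp
    ((equation_P A B).map (algebraMap ℚ[X] (RatFunc ℚ))))

/-- The second point over `ℚ(w)`. -/
def pointQ (hA : A ≠ 0) (hB : B ≠ 0) (hd : 4 * A ^ 3 + 27 * B ^ 2 ≠ 0) :
    (genW (twistW A B)).toAffine.Point :=
  haveI := genW_isElliptic (twistW_Δ_ne hA hB hd)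
  .some _ _ (Affine.equation_iff_nonsingular.mp
    ((equation_Q A B).map (algebraMap ℚ[X] (RatFunc ℚ))))

/-- The heights of the specialisations, by rational functions of the parameter. -/
theorem hgtAt_points (hA : A ≠ 0) (hB : B ≠ 0) (hd : 4 * A ^ 3 + 27 * B ^ 2 ≠ 0) :
    ∀ᶠ t : ℚ in cofinite,
      hgtAt (twistW A B) t (pointP hA hB hd) =
        absHgt (baseCurve A B) (((numX B).eval t / (denX A).eval t : ℚ) : OnePoint ℚ) ∧
      hgtAt (twistW A B) t (pointQ hA hB hd) =
        absHgt (baseCurve A B) (((numX B).eval t / (C A * (X ^ 2 + 1)).eval t : ℚ) : OnePoint ℚ) ∧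
      hgtAt (twistW A B) t (pointP hA hB hd + pointQ hA hB hd) =
        absHgt (baseCurve A B) (((sumNum A B).eval t / (sumDen A B).eval t : ℚ) : OnePoint ℚ) ∧
      hgtAt (twistW A B) t (pointP hA hB hd - pointQ hA hB hd) =
        absHgt (baseCurve A B) (((diffNum A B).eval t / (diffDen A B).eval t : ℚ) : OnePoint ℚ) := by
  filter_upwards [((finite_setOfPred_isRoot (twistPoly_ne_zero hA hB)).union
    (Set.toFinite {(-1 : ℚ), 1})).eventually_cofinite_notMem] with t ht
  simp only [Set.mem_union, Set.mem_ofPred_eq, IsRoot.def, Set.mem_insert_iff,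
    Set.mem_singleton_iff, not_or] at ht
  obtain ⟨hD, ht1, ht1'⟩ := ht
  haveI := baseCurve_isElliptic hd
  haveI := twistedCurve_isElliptic hd hD
  haveI := genW_isElliptic (twistW_Δ_ne hA hB hd)
  have hF := fibreW_twistW_eq (A := A) (B := B) t
  have hΔ : (fibreW (twistW A B) t).Δ ≠ 0 := by
    rw [hF]; exact (twistedCurve A B _).isUnit_Δ.ne_zero
  have hV0 : (valPoly A B).eval t ≠ 0 := left_ne_zero_of_mul (eval_twistPoly (A := A) (B := B) t ▸ hD)
  have hM0 : (denX A).eval t ≠ 0 := right_ne_zero_of_mul (eval_twistPoly (A := A) (B := B) t ▸ hD)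
  have hN0 : (numX B).eval t ≠ 0 := by
    simp only [numX, eval_mul, eval_C, eval_add, eval_pow, eval_X, eval_one]
    exact mul_ne_zero (neg_ne_zero.2 hB) (by positivity)
  have ht0 : t ≠ 0 := fun h => hM0 (by simp [denX, h])
  have h12 : 1 - t ^ 2 ≠ 0 := fun h => by
    rcases sq_eq_one_iff.1 (sub_eq_zero.1 h).symm with e | e
    · exact ht1' e
    · exact ht1 e
  have h13 : 1 + t ^ 3 ≠ 0 := fun h => ht1 ((Odd.strictMono_pow (show Odd 3 by decide)).injective
    (show t ^ 3 = (-1) ^ 3 by linarith))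
  have h13' : 1 + -t ^ 3 ≠ 0 := fun h => ht1' ((Odd.strictMono_pow (show Odd 3 by decide)).injective
    (show t ^ 3 = 1 ^ 3 by linarith))
  have hN : (1 - t ^ 2) * (numX B).eval t = -B * (1 - (t ^ 3) ^ 2) := by
    simp only [numX, eval_mul, eval_C, eval_add, eval_pow, eval_X, eval_one]; ring
  have hN' : (1 - t ^ 2) * (numX B).eval t = -B * (1 - (-t ^ 3) ^ 2) := by rw [hN]; ring
  obtain ⟨hP, hQ⟩ := nonsingular_pair hd hD
  have hval : ∀ p : ℚ[X], ∀ h : algebraMap ℚ[X] (RatFunc ℚ) p ∈ valueRing t,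
      valueAt t ⟨algebraMap ℚ[X] (RatFunc ℚ) p, h⟩ = p.eval t := fun p h => by
    show (algebraMap ℚ[X] (RatFunc ℚ) p).num.eval t / (algebraMap ℚ[X] (RatFunc ℚ) p).denom.eval t = _
    simp [RatFunc.num_algebraMap, RatFunc.denom_algebraMap]
  have hmem : ∀ p : ℚ[X], algebraMap ℚ[X] (RatFunc ℚ) p ∈ valueRing t := fun p => by
    show (algebraMap ℚ[X] (RatFunc ℚ) p).denom.eval t ≠ 0
    simp [RatFunc.denom_algebraMap]
  -- the transport to the twisted curve
  set ρ := FA.FunctionFieldRank.pointMap (RingHom.id ℚ) (W := fibreW (twistW A B) t)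
    (W' := twistedCurve A B ((twistPoly A B).eval t)) (by rw [hF]; ext <;> simp [WeierstrassCurve.map])
  have hρ : ∀ R, hgtAt (twistW A B) t R = dblHgt (ρ (specW (twistW A B) hΔ R)) := fun R => by
    haveI := fibreW_isElliptic hΔ
    rw [← hgtAt_eq hΔ (f := fun S => dblHgt (ρ S)) ?_ (fun S => by simp only [map_nsmul, dblHgt_double]) R]
    obtain ⟨C₀, hC₀⟩ := exists_dblHgt_bound (E := twistedCurve A B ((twistPoly A B).eval t))
    refine ⟨C₀, fun S => ?_⟩
    have e : (ρ S).xRep = S.xRep := by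
      rcases S with _ | ⟨u, w, h'⟩
      · rfl
      · simp [ρ, FA.FunctionFieldRank.pointMap_some]
    simpa [e] using hC₀ (ρ S)
  have sP : ρ (specW (twistW A B) hΔ (pointP hA hB hd)) = .some _ _ hP := by
    obtain ⟨hy, h', e⟩ := FA.NeronSpecialisation.specW_some_of_mem hΔ
      (Affine.equation_iff_nonsingular.mp ((equation_P A B).map (algebraMap ℚ[X] (RatFunc ℚ))))
      (hmem (absP A B))
    rw [pointP, e]
    simp only [ρ, FA.FunctionFieldRank.pointMap_some, RingHom.id_apply, hval, eval_pow]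
  have sQ : ρ (specW (twistW A B) hΔ (pointQ hA hB hd)) = .some _ _ hQ := by
    obtain ⟨hy, h', e⟩ := FA.NeronSpecialisation.specW_some_of_mem hΔ
      (Affine.equation_iff_nonsingular.mp ((equation_Q A B).map (algebraMap ℚ[X] (RatFunc ℚ))))
      (hmem (absQ A B))
    rw [pointQ, e]
    simp only [ρ, FA.FunctionFieldRank.pointMap_some, RingHom.id_apply, hval, eval_mul, eval_pow,
      eval_X]
  have eP : (absP A B).eval t = (valPoly A B).eval t * (numX B).eval t := eval_mul
  have eQ : (absQ A B).eval t = t ^ 2 * ((valPoly A B).eval t * (numX B).eval t) := by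
    rw [absQ, eval_mul, eP, eval_pow, eval_X]
  have hX : (absP A B).eval t ≠ (absQ A B).eval t := fun h => by
    rw [eP, eQ] at h
    exact mul_ne_zero h12 (mul_ne_zero hV0 hN0) (by linear_combination h)
  refine ⟨?_, ?_, ?_, ?_⟩
  · rw [hρ, sP, dblHgt_twisted hd hD hP, eP, eval_twistPoly, mul_div_mul_left _ _ hV0]
  · rw [hρ, sQ, dblHgt_twisted hd hD hQ]
    congr 2
    rw [eQ, eval_twistPoly, denX]
    simp only [eval_mul, eval_pow, eval_X, eval_C, eval_add, eval_one]
    field_simp
  · rw [hρ, map_add, map_add, sP, sQ, Affine.Point.add_of_X_ne hX, dblHgt_twisted hd hD]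
    congr 2
    rw [Affine.slope_of_X_ne hX, Affine.addX, eval_twistPoly, eP, eQ]
    simp only [twistedCurve, sumNum, sumDen, eval_mul, eval_sub, eval_add, eval_pow, eval_X,
      eval_C, eval_one, zero_mul, add_zero, sub_zero]
    exact sum_identity (s := t ^ 3) hV0 hM0 hB h13 h12 hN0 hN
  · rw [hρ, map_sub, map_sub, sP, sQ, sub_eq_add_neg, Affine.Point.neg_some,
      Affine.Point.add_of_X_ne hX, dblHgt_twisted hd hD]
    congr 2
    rw [Affine.slope_of_X_ne hX, Affine.addX, eval_twistPoly, eP, eQ]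
    simp only [Affine.negY, twistedCurve, diffNum, diffDen, eval_mul, eval_sub, eval_add,
      eval_pow, eval_X, eval_C, eval_one, zero_mul, add_zero, sub_zero, ← neg_mul]
    simpa only [sub_eq_add_neg] using sum_identity (s := -t ^ 3) hV0 hM0 hB h13' h12 hN0 hN'

/-- **The pairing of the two points is nondegenerate.** -/
theorem det_pairing_ne (hA : A ≠ 0) (hB : B ≠ 0) (hd : 4 * A ^ 3 + 27 * B ^ 2 ≠ 0) :
    (Matrix.of fun i j => genPairing (twistW A B) (![pointP hA hB hd, pointQ hA hB hd] i)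
      (![pointP hA hB hd, pointQ hA hB hd] j)).det ≠ 0 := by
  haveI := baseCurve_isElliptic hd
  have hW := twistW_Δ_ne hA hB hd
  haveI := genW_isElliptic hW
  set P := pointP hA hB hd
  set Q := pointQ hA hB hd
  set H := absHgt (baseCurve A B)
  obtain ⟨C₀, hC₀⟩ := exists_absHgt_bound (E := baseCurve A B)
  obtain ⟨hsn, hsd, hdn, hdd⟩ := degree_forms A B
  obtain ⟨C₁, hC₁⟩ := exists_height_le hsn hsd
  obtain ⟨C₂, hC₂⟩ := exists_height_le hdn hdd
  have hdeg : (4 : ℕ) ≤ (numX B).natDegree := by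
    simp only [numX]; rw [natDegree_C_mul (neg_ne_zero.2 hB)]; exact le_of_eq (Eq.symm (by compute_degree!))
  obtain ⟨C₃, hC₃⟩ := exists_height_ge (p := numX B) (q := denX A) (d := 4)
    ⟨C (-B)⁻¹, -C A⁻¹, by
      rw [numX, denX, neg_mul, ← sub_eq_add_neg, ← mul_assoc, ← C_mul, inv_mul_cancel₀ (neg_ne_zero.2 hB),
        ← mul_assoc, ← mul_assoc, ← C_mul, inv_mul_cancel₀ hA, C_1]
      ring⟩ hdeg
  obtain ⟨C₄, hC₄⟩ := exists_height_ge (p := numX B) (q := C A * (X ^ 2 + 1)) (d := 4)
    ⟨C (-B)⁻¹, -(C A⁻¹ * X ^ 2), by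
      rw [numX, neg_mul, ← sub_eq_add_neg, ← mul_assoc, ← C_mul, inv_mul_cancel₀ (neg_ne_zero.2 hB),
        show C A⁻¹ * X ^ 2 * (C A * (X ^ 2 + 1)) = C A⁻¹ * C A * (X ^ 2 * (X ^ 2 + 1)) by ring,
        ← C_mul, inv_mul_cancel₀ hA, C_1]
      ring⟩ hdeg
  have hne : ∀ q : ℚ[X], q ≠ 0 → ∀ᶠ t : ℚ in cofinite, q.eval t ≠ 0 := fun q hq =>
    (finite_setOfPred_isRoot hq).eventually_cofinite_notMem
  have hq1 : sumDen A B ≠ 0 := fun h => by
    simpa [sumDen, denX, hA, hB] using congrArg (Polynomial.eval (1 : ℚ)) h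
  have hq2 : diffDen A B ≠ 0 := fun h => by
    have := congrArg (Polynomial.eval (2 : ℚ)) h
    norm_num [diffDen, denX, hA, hB] at this
  have hq4 : (C A * (X ^ 2 + 1) : ℚ[X]) ≠ 0 := fun h => by
    simpa [hA] using congrArg (Polynomial.eval (0 : ℚ)) h
  have upper : ∀ {R : (genW (twistW A B)).toAffine.Point} {d c : ℝ},
      (∀ᶠ t : ℚ in cofinite, hgtAt (twistW A B) t R ≤ d * pointHeight (t : OnePoint ℚ) + c) →
      genHgt (twistW A B) R ≤ d := fun {R d c} h => by
    have h0 := (tendsto_const_nhds (x := c)).div_atTop (tendsto_height_cofinite (K := ℚ))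
    have hlim : Tendsto (fun t : ℚ => d + c / pointHeight (t : OnePoint ℚ)) cofinite (𝓝 d) := by
      simpa using h0.const_add d
    refine le_of_tendsto_of_tendsto (tendsto_hgtAt hW R).2 hlim ?_
    filter_upwards [h, (tendsto_height_cofinite (K := ℚ)).eventually_gt_atTop 0] with t ht hpos
    rw [div_le_iff₀ hpos, add_mul, div_mul_cancel₀ _ hpos.ne']
    exact ht
  have lower : ∀ {R : (genW (twistW A B)).toAffine.Point} {d c : ℝ},
      (∀ᶠ t : ℚ in cofinite, d * pointHeight (t : OnePoint ℚ) - c ≤ hgtAt (twistW A B) t R) →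
      d ≤ genHgt (twistW A B) R := fun {R d c} h => by
    have h0 := (tendsto_const_nhds (x := c)).div_atTop (tendsto_height_cofinite (K := ℚ))
    have hlim : Tendsto (fun t : ℚ => d - c / pointHeight (t : OnePoint ℚ)) cofinite (𝓝 d) := by
      simpa using h0.const_sub d
    refine le_of_tendsto_of_tendsto hlim (tendsto_hgtAt hW R).2 ?_
    filter_upwards [h, (tendsto_height_cofinite (K := ℚ)).eventually_gt_atTop 0] with t ht hpos
    rw [le_div_iff₀ hpos, sub_mul, div_mul_cancel₀ _ hpos.ne']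
    exact ht
  have hall := hgtAt_points hA hB hd
  have u1 : genHgt (twistW A B) (P + Q) ≤ 12 := upper (c := C₁ + C₀) (by
    filter_upwards [hall, hne _ hq1] with t ht h0
    rw [ht.2.2.1]
    have := hC₁ t h0; have := (abs_le.1 (hC₀ (((sumNum A B).eval t / (sumDen A B).eval t : ℚ) : OnePoint ℚ))).2
    push_cast at *; linarith)
  have u2 : genHgt (twistW A B) (P - Q) ≤ 12 := upper (c := C₂ + C₀) (by
    filter_upwards [hall, hne _ hq2] with t ht h0
    rw [ht.2.2.2]
    have := hC₂ t h0; have := (abs_le.1 (hC₀ (((diffNum A B).eval t / (diffDen A B).eval t : ℚ) : OnePoint ℚ))).2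
    push_cast at *; linarith)
  have l1 : 4 ≤ genHgt (twistW A B) P := lower (c := C₃ + C₀) (by
    filter_upwards [hall, hne _ (denX_ne_zero hA)] with t ht h0
    rw [ht.1]
    have := hC₃ t h0; have := (abs_le.1 (hC₀ (((numX B).eval t / (denX A).eval t : ℚ) : OnePoint ℚ))).1
    push_cast at *; linarith)
  have l2 : 4 ≤ genHgt (twistW A B) Q := lower (c := C₄ + C₀) (by
    filter_upwards [hall, hne _ hq4] with t ht h0
    rw [ht.2.1]
    have := hC₄ t h0
    have := (abs_le.1 (hC₀ (((numX B).eval t / (C A * (X ^ 2 + 1)).eval t : ℚ) : OnePoint ℚ))).1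
    push_cast at *; linarith)
  have hpar := genHgt_parallelogram hW
  have hdbl : ∀ R, genPairing (twistW A B) R R = genHgt (twistW A B) R := fun R =>
    FA.Height.pairing_self hpar R
  have hcomm : genPairing (twistW A B) Q P = genPairing (twistW A B) P Q :=
    FA.Height.pairing_comm Q P
  rw [Matrix.det_fin_two]
  simp only [Matrix.of_apply, Matrix.cons_val_zero, Matrix.cons_val_one, Matrix.cons_val_fin_one]
  rw [hdbl, hdbl, hcomm, genPairing]
  have hs := hpar P Q
  intro h
  nlinarith [mul_le_mul l1 l2 (by norm_num) (by linarith : (0 : ℝ) ≤ genHgt (twistW A B) P),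
    mul_nonneg (show (0 : ℝ) ≤ 4 - (genHgt (twistW A B) (P + Q) - genHgt (twistW A B) P -
      genHgt (twistW A B) Q) by linarith) (show (0 : ℝ) ≤ 4 + (genHgt (twistW A B) (P + Q) -
      genHgt (twistW A B) P - genHgt (twistW A B) Q) by linarith)]

end FA.CallSilverman
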