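import Fermat.Agent.CallSilverman.Spec
import Mathlib.NumberTheory.Height.Northcott

/-!
# The theorem of Call and Silverman

Along a family of rational functions over `K(T)` the canonical height of a specialised point,
divided by `h (t)`, tends to the canonical height of the generic point.
-/

set_option autoImplicit false
set_option linter.style.haveILetI false
set_option linter.unusedSectionVars false

noncomputable section

open Polynomial OnePoint Height Filter Topology
open FA.ArithmeticDynamics

namespace FA.CallSilverman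

variable {K : Type*} [Field K] [AdmissibleAbsValues K]

/-- A bound for one step bounds the distance to the canonical height. -/
theorem abs_canonicalHeight_sub_le {P Q : K[X]} (hc : IsCoprime P Q) {d : ℕ}
    (hd : degree P Q = d) (hd2 : 2 ≤ d) {B : ℝ}
    (hB : ∀ y, |pointHeight (ratApply P Q y) - d * pointHeight y| ≤ B) (y : OnePoint K) :
    |canonicalHeight P Q y - pointHeight y| ≤ B := by
  obtain ⟨D, hD⟩ := exists_tendsto_canonicalHeight hc (by omega)
  set g : OnePoint K → ℝ := fun y => |canonicalHeight P Q y - pointHeight y|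
  haveI : Nonempty (OnePoint K) := ⟨∞⟩
  have hbdd : BddAbove (Set.range g) := ⟨D, by rintro _ ⟨y, rfl⟩; exact (hD y).2⟩
  set M := ⨆ y, g y
  have hd0 : (2 : ℝ) ≤ d := by exact_mod_cast hd2
  have h1 : ∀ y, (d : ℝ) * g y ≤ M + B := fun y => by
    have e : (d : ℝ) * (canonicalHeight P Q y - pointHeight y) =
        (canonicalHeight P Q (ratApply P Q y) - pointHeight (ratApply P Q y)) +
          (pointHeight (ratApply P Q y) - d * pointHeight y) := by
      rw [canonicalHeight_ratApply hc (by omega), hd]; ring
    show (d : ℝ) * |canonicalHeight P Q y - pointHeight y| ≤ M + B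
    rw [← abs_of_nonneg (show (0 : ℝ) ≤ d by linarith), ← abs_mul, e]
    exact (abs_add_le _ _).trans (add_le_add (le_ciSup hbdd _) (hB y))
  have hM : M ≤ (M + B) / d := ciSup_le fun y => by
    rw [le_div_iff₀ (by linarith), mul_comm]
    exact h1 y
  have hM' : M ≤ B := by
    rw [le_div_iff₀ (by linarith)] at hM
    have : 0 ≤ M := (abs_nonneg _).trans (le_ciSup hbdd y)
    nlinarith
  exact (le_ciSup hbdd y).trans hM'

theorem pointHeight_nonneg (x : OnePoint K) : 0 ≤ pointHeight x := logHeight_nonneg _

variable [Northcott (logHeight₁ (K := K))]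

theorem tendsto_height_cofinite :
    Tendsto (fun t : K => pointHeight (t : OnePoint K)) cofinite atTop := by
  refine tendsto_atTop.2 fun b => eventually_cofinite.2 ?_
  refine ((finite_pointHeight_le (K := K) b).preimage (f := fun t : K => (t : OnePoint K))
    OnePoint.coe_injective.injOn).subset fun t ht => ?_
  exact (not_le.1 ht).le

variable [Infinite K]

/-- **The theorem of Call and Silverman.** -/
theorem exists_limit {P Q : K[X][X]}
    (hc : IsCoprime (P.map (algebraMap K[X] (RatFunc K))) (Q.map (algebraMap K[X] (RatFunc K))))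
    (hd : 2 ≤ degree (P.map (algebraMap K[X] (RatFunc K))) (Q.map (algebraMap K[X] (RatFunc K))))
    (x : OnePoint (RatFunc K)) : ∃ l : ℝ,
      Tendsto (fun k : ℕ => (ptDeg ((ratApply (P.map (algebraMap K[X] (RatFunc K)))
          (Q.map (algebraMap K[X] (RatFunc K))))^[k] x) : ℝ) /
        (degree (P.map (algebraMap K[X] (RatFunc K))) (Q.map (algebraMap K[X] (RatFunc K))) : ℝ) ^ k)
          atTop (𝓝 l) ∧
      Tendsto (fun t : K => canonicalHeight (specT t P) (specT t Q) (specPt t x) /
        pointHeight (t : OnePoint K)) cofinite (𝓝 l) := by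
  set f := ratApply (P.map (algebraMap K[X] (RatFunc K))) (Q.map (algebraMap K[X] (RatFunc K)))
  set d := degree (P.map (algebraMap K[X] (RatFunc K))) (Q.map (algebraMap K[X] (RatFunc K))) with hd'
  obtain ⟨C, S, hC0, hS, hC⟩ := exists_uniform hc hd'.symm
  choose D hD using fun k => exists_height_specPt (f^[k] x)
  set F := fun t : K => canonicalHeight (specT t P) (specT t Q) (specPt t x) /
    pointHeight (t : OnePoint K)
  set L := fun k : ℕ => (ptDeg (f^[k] x) : ℝ) / (d : ℝ) ^ k
  have hd0 : (2 : ℝ) ≤ d := by exact_mod_cast hd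
  -- the basic estimate
  have key : ∀ k, ∀ᶠ t : K in cofinite, |F t - L k| ≤ (2 * C + 1) / (d : ℝ) ^ k := fun k => by
    filter_upwards [hS.eventually_cofinite_notMem,
      tendsto_height_cofinite.eventually (eventually_ge_atTop (max 1 |D k|))] with t htS ht
    obtain ⟨hcop, hdeg, hstep⟩ := hC t htS
    set h := pointHeight (t : OnePoint K)
    have h1 : 1 ≤ h := (le_max_left _ _).trans ht
    have hpow : (0 : ℝ) < (d : ℝ) ^ k := by positivity
    have hiter : ∀ (k : ℕ) y, canonicalHeight (specT t P) (specT t Q)
        ((ratApply (specT t P) (specT t Q))^[k] y) =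
          (d : ℝ) ^ k * canonicalHeight (specT t P) (specT t Q) y := by
      intro k y
      induction k with
      | zero => simp
      | succ k ih =>
        rw [Function.iterate_succ_apply', canonicalHeight_ratApply hcop (by omega), ih, hdeg,
          pow_succ']
        ring
    have h2 := abs_canonicalHeight_sub_le hcop hdeg hd hstep (specPt t (f^[k] x))
    have h3 := hD k t
    rw [specPt_iterate hd'.symm hcop hdeg, hiter] at h2
    rw [specPt_iterate hd'.symm hcop hdeg] at h3
    have h4 : |(d : ℝ) ^ k * canonicalHeight (specT t P) (specT t Q) (specPt t x) -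
        ptDeg (f^[k] x) * h| ≤ (2 * C + 1) * h := by
      rw [abs_le] at h2 h3 ⊢
      constructor <;> nlinarith [le_abs_self (D k), le_max_right (1 : ℝ) |D k|]
    have e : F t - L k = ((d : ℝ) ^ k * canonicalHeight (specT t P) (specT t Q) (specPt t x) -
        ptDeg (f^[k] x) * h) / ((d : ℝ) ^ k * h) := by
      show canonicalHeight (specT t P) (specT t Q) (specPt t x) / h -
        (ptDeg (f^[k] x) : ℝ) / (d : ℝ) ^ k = _
      have h0 : h ≠ 0 := by linarith
      field_simp
    rw [e, abs_div, abs_of_pos (show 0 < (d : ℝ) ^ k * h by positivity),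
      div_le_div_iff₀ (by positivity) hpow]
    nlinarith
  have hb0 : Tendsto (fun k : ℕ => 2 * ((2 * C + 1) / (d : ℝ) ^ k)) atTop (𝓝 0) := by
    simpa using ((tendsto_const_nhds (x := 2 * C + 1)).div_atTop
      (tendsto_pow_atTop_atTop_of_one_lt (show (1 : ℝ) < d by linarith))).const_mul 2
  have hanti : ∀ {k m : ℕ}, m ≤ k → (2 * C + 1) / (d : ℝ) ^ k ≤ (2 * C + 1) / (d : ℝ) ^ m :=
    fun h => div_le_div_of_nonneg_left (by linarith) (by positivity) (pow_le_pow_right₀ (by linarith) h)
  have hcauchy : CauchySeq L := cauchySeq_of_le_tendsto_0 _ (fun k m N hk hm => by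
    obtain ⟨t, h1, h2⟩ := ((key k).and (key m)).exists
    rw [Real.dist_eq]
    have := abs_sub_le (L k) (F t) (L m)
    rw [abs_sub_comm (L k) (F t)] at this
    linarith [hanti hk, hanti hm]) hb0
  obtain ⟨l, hl⟩ := cauchySeq_tendsto_of_complete hcauchy
  refine ⟨l, hl, Metric.tendsto_nhds.2 fun ε hε => ?_⟩
  obtain ⟨k, hk1, hk2⟩ := ((Metric.tendsto_nhds.1 hl (ε / 2) (half_pos hε)).and
    (hb0.eventually (eventually_lt_nhds hε))).exists
  refine (key k).mono fun t ht => ?_
  rw [Real.dist_eq] at hk1 ⊢
  linarith [abs_sub_le (F t) (L k) l]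

/-- **Finitely many parameters make the point preperiodic** unless its canonical height is zero. -/
theorem finite_preperiodic_specialisations {P Q : K[X][X]}
    (hc : IsCoprime (P.map (algebraMap K[X] (RatFunc K))) (Q.map (algebraMap K[X] (RatFunc K))))
    (hd : 2 ≤ degree (P.map (algebraMap K[X] (RatFunc K))) (Q.map (algebraMap K[X] (RatFunc K))))
    {x : OnePoint (RatFunc K)} {l : ℝ} (hl : l ≠ 0)
    (h : Tendsto (fun k : ℕ => (ptDeg ((ratApply (P.map (algebraMap K[X] (RatFunc K)))
        (Q.map (algebraMap K[X] (RatFunc K))))^[k] x) : ℝ) /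
      (degree (P.map (algebraMap K[X] (RatFunc K))) (Q.map (algebraMap K[X] (RatFunc K))) : ℝ) ^ k)
        atTop (𝓝 l)) :
    {t : K | (Set.range fun n =>
      (ratApply (specT t P) (specT t Q))^[n] (specPt t x)).Finite}.Finite := by
  obtain ⟨l', h1, h2⟩ := exists_limit hc hd x
  obtain rfl := tendsto_nhds_unique h h1
  obtain ⟨C, S, -, hS, hC⟩ := exists_uniform hc rfl
  refine ((eventually_cofinite.1 (h2.eventually_ne hl)).union hS).subset fun t ht => ?_
  by_cases htS : t ∈ S
  · exact Or.inr htS
  obtain ⟨hcop, hdeg, -⟩ := hC t htS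
  refine Or.inl fun hne => hne ?_
  rw [(canonicalHeight_eq_zero_iff hcop (hdeg ▸ hd) _).2 ht, zero_div]

end FA.CallSilverman
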