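import Fermat.Agent.CallSilverman.Uniform

/-!
# Specialisation of points of `ℙ¹ (K(T))`

Specialisation at `T = t` commutes with the family of rational functions, and the height of the
specialisation is the degree times `h (t)` up to a bounded error.
-/

set_option autoImplicit false
set_option linter.style.haveILetI false
set_option linter.unusedSectionVars false

noncomputable section

open Polynomial OnePoint Height
open FA.ArithmeticDynamics

namespace FA.CallSilverman

variable {K : Type*} [Field K]

/-- The specialisation of a point. -/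
def specPt (t : K) (x : OnePoint (RatFunc K)) : OnePoint K :=
  x.elim ∞ fun z => toPoint ![z.num.eval t, z.denom.eval t]

/-- The degree of a point. -/
def ptDeg (x : OnePoint (RatFunc K)) : ℕ :=
  x.elim 0 fun z => max z.num.natDegree z.denom.natDegree

theorem specPt_infty (t : K) : specPt t (∞ : OnePoint (RatFunc K)) = ∞ := rfl

theorem specPt_coe (t : K) (z : RatFunc K) :
    specPt t (z : OnePoint (RatFunc K)) = toPoint ![z.num.eval t, z.denom.eval t] := rfl

theorem ptDeg_infty : ptDeg (∞ : OnePoint (RatFunc K)) = 0 := rfl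

theorem ptDeg_coe (z : RatFunc K) :
    ptDeg (z : OnePoint (RatFunc K)) = max z.num.natDegree z.denom.natDegree := rfl

theorem eval_num_denom_ne_zero (z : RatFunc K) (t : K) :
    (![z.num.eval t, z.denom.eval t] : Fin 2 → K) ≠ 0 := fun h => by
  obtain ⟨a, b, hab⟩ := RatFunc.isCoprime_num_denom z
  have h0 : z.num.eval t = 0 := congrFun h 0
  have h1 : z.denom.eval t = 0 := congrFun h 1
  simpa [h0, h1] using congrArg (Polynomial.eval t) hab

theorem toPoint_eq_of_cross {v w : Fin 2 → K} (hv : v ≠ 0) (hw : w ≠ 0)
    (h : v 0 * w 1 = v 1 * w 0) : toPoint v = toPoint w := by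
  have hne : ∀ u : Fin 2 → K, u ≠ 0 → u 1 = 0 → u 0 ≠ 0 := fun u hu h1 h0 =>
    hu (funext fun i => by fin_cases i <;> assumption)
  by_cases hv1 : v 1 = 0
  · have hw1 : w 1 = 0 := by
      rw [hv1, zero_mul] at h
      exact (mul_eq_zero.1 h).resolve_left (hne v hv hv1)
    simp [toPoint, hv1, hw1]
  · have hw1 : w 1 ≠ 0 := fun h1 => hne w hw h1 (by
      rw [h1, mul_zero, eq_comm] at h
      exact (mul_eq_zero.1 h).resolve_left hv1)
    simp only [toPoint, if_neg hv1, if_neg hw1, OnePoint.coe_eq_coe]
    rw [div_eq_div_iff hv1 hw1]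
    linear_combination h

/-- Any polynomial coordinates may be specialised. -/
theorem specPt_toPoint (t : K) {a b : K[X]} (h : (![a.eval t, b.eval t] : Fin 2 → K) ≠ 0) :
    specPt t (toPoint ![algebraMap K[X] (RatFunc K) a, algebraMap K[X] (RatFunc K) b]) =
      toPoint ![a.eval t, b.eval t] := by
  rcases eq_or_ne b 0 with rfl | hb
  · simp [toPoint, specPt_infty]
  have hb' := RatFunc.algebraMap_ne_zero (K := K) hb
  set z := algebraMap K[X] (RatFunc K) a / algebraMap K[X] (RatFunc K) b with hz
  have e : toPoint ![algebraMap K[X] (RatFunc K) a, algebraMap K[X] (RatFunc K) b] = ↑z := by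
    simp [toPoint, hb', hz]
  rw [e, specPt_coe]
  refine toPoint_eq_of_cross (eval_num_denom_ne_zero z t) h ?_
  have hq : z.num * b = z.denom * a := by
    apply RatFunc.algebraMap_injective K
    have := RatFunc.num_div_denom z
    rw [div_eq_iff (RatFunc.algebraMap_ne_zero z.denom_ne_zero)] at this
    rw [map_mul, map_mul, this, hz]
    field_simp
  simpa using congrArg (Polynomial.eval t) hq

theorem exists_polyRep (x : OnePoint (RatFunc K)) : ∃ n m : K[X],
    x = toPoint ![algebraMap K[X] (RatFunc K) n, algebraMap K[X] (RatFunc K) m] ∧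
      ∀ t : K, (![n.eval t, m.eval t] : Fin 2 → K) ≠ 0 ∧ specPt t x = toPoint ![n.eval t, m.eval t] := by
  induction x using OnePoint.rec with
  | infty => exact ⟨1, 0, by simp [toPoint], fun t => ⟨by simp, by simp [specPt_infty, toPoint]⟩⟩
  | coe z =>
    refine ⟨z.num, z.denom, ?_, fun t => ⟨eval_num_denom_ne_zero z t, rfl⟩⟩
    simp [toPoint, z.denom_ne_zero, RatFunc.num_div_denom]

/-- The form of a family at polynomial coordinates. -/
def formT (R : K[X][X]) (d : ℕ) (n m : K[X]) : K[X] :=
  ∑ p ∈ Finset.antidiagonal d, R.coeff p.1 * (n ^ p.1 * m ^ p.2)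

/-- **Specialisation commutes with the family.** -/
theorem specPt_ratApply {P Q : K[X][X]} {d : ℕ}
    (hd : degree (P.map (algebraMap K[X] (RatFunc K))) (Q.map (algebraMap K[X] (RatFunc K))) = d)
    {t : K} (hc : IsCoprime (specT t P) (specT t Q)) (hdt : degree (specT t P) (specT t Q) = d)
    (x : OnePoint (RatFunc K)) :
    specPt t (ratApply (P.map (algebraMap K[X] (RatFunc K))) (Q.map (algebraMap K[X] (RatFunc K))) x) =
      ratApply (specT t P) (specT t Q) (specPt t x) := by
  obtain ⟨n, m, hx, hnm⟩ := exists_polyRep x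
  obtain ⟨hne, hs⟩ := hnm t
  have hne' : (![algebraMap K[X] (RatFunc K) n, algebraMap K[X] (RatFunc K) m] :
      Fin 2 → RatFunc K) ≠ 0 := fun h => hne (by
    have h0 : n = 0 := (map_eq_zero_iff _ (RatFunc.algebraMap_injective K)).1 (congrFun h 0)
    have h1 : m = 0 := (map_eq_zero_iff _ (RatFunc.algebraMap_injective K)).1 (congrFun h 1)
    simp [h0, h1])
  have hg : ∀ R : K[X][X], form (R.map (algebraMap K[X] (RatFunc K))) d
      ![algebraMap K[X] (RatFunc K) n, algebraMap K[X] (RatFunc K) m] =
        algebraMap K[X] (RatFunc K) (formT R d n m) := fun R => by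
    simp [form_eq_sum, formT, coeff_map]
  have ht : ∀ R : K[X][X], (formT R d n m).eval t = form (specT t R) d ![n.eval t, m.eval t] :=
    fun R => by simp [form_eq_sum, formT, coeff_specT, eval_finsetSum]
  rw [hs, ratApply_toPoint _ _ hne, hdt, hx, ratApply_toPoint _ _ hne', hd, hg, hg,
    specPt_toPoint, ht, ht]
  rw [ht, ht]
  have := forms_ne_zero hc hne
  rwa [hdt] at this

theorem specPt_iterate {P Q : K[X][X]} {d : ℕ}
    (hd : degree (P.map (algebraMap K[X] (RatFunc K))) (Q.map (algebraMap K[X] (RatFunc K))) = d)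
    {t : K} (hc : IsCoprime (specT t P) (specT t Q)) (hdt : degree (specT t P) (specT t Q) = d)
    (x : OnePoint (RatFunc K)) (k : ℕ) :
    specPt t ((ratApply (P.map (algebraMap K[X] (RatFunc K)))
        (Q.map (algebraMap K[X] (RatFunc K))))^[k] x) =
      (ratApply (specT t P) (specT t Q))^[k] (specPt t x) := by
  induction k with
  | zero => rfl
  | succ k ih => rw [Function.iterate_succ_apply', Function.iterate_succ_apply',
      specPt_ratApply hd hc hdt, ih]

variable [AdmissibleAbsValues K]

/-- **The height of a specialisation.** -/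
theorem exists_height_specPt (x : OnePoint (RatFunc K)) : ∃ C : ℝ, ∀ t : K,
    |pointHeight (specPt t x) - ptDeg x * pointHeight (t : OnePoint K)| ≤ C := by
  induction x using OnePoint.rec with
  | infty => exact ⟨|pointHeight (∞ : OnePoint K)|, fun t => by simp [specPt_infty, ptDeg_infty]⟩
  | coe z =>
    obtain ⟨C, hC⟩ := exists_height_bound (RatFunc.isCoprime_num_denom z)
    refine ⟨C, fun t => ?_⟩
    have h := hC (t : OnePoint K)
    rw [ratApply, rep_coe, form_coe _ (natDegree_left_le _ _),
      form_coe _ (natDegree_right_le _ _)] at h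
    exact h

end FA.CallSilverman
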