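import Fermat.Agent.ArithmeticDynamics.Height
import Mathlib.RingTheory.Localization.Integral
import Mathlib.FieldTheory.RatFunc.AsPolynomial

/-!
# The height of a family of rational functions, uniformly in the parameter

For `P, Q ∈ K[T][X]` coprime over `K(T)` of degree `d` one cleared identity of Bézout gives a
bound `|h (f_t y) - d h (y)| ≤ C (1 + h (t))` outside a finite set of parameters `t`.
-/

set_option autoImplicit false
set_option linter.style.haveILetI false
set_option linter.unusedSectionVars false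

noncomputable section

open Polynomial OnePoint Height
open FA.ArithmeticDynamics

namespace FA.CallSilverman

variable {K : Type*} [Field K]

/-- The polynomial at `T = t`. -/
def specT (t : K) : K[X][X] →+* K[X] := mapRingHom (evalRingHom t)

theorem coeff_specT (t : K) (R : K[X][X]) (i : ℕ) : (specT t R).coeff i = (R.coeff i).eval t := by
  simp [specT]

theorem natDegree_specT_le (t : K) {R : K[X][X]} {d : ℕ} (h : R.natDegree ≤ d) :
    (specT t R).natDegree ≤ d :=
  natDegree_map_le.trans h

/-- The monomials of degree `d`. -/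
def mono (d : ℕ) (v : Fin 2 → K) (i : Fin (d + 1)) : K := v 0 ^ (i : ℕ) * v 1 ^ (d - i)

theorem form_eq_dot (R : K[X]) (d : ℕ) (v : Fin 2 → K) :
    form R d v = ∑ i : Fin (d + 1), R.coeff i * mono d v i := by
  rw [form_eq_sum, Finset.Nat.sum_antidiagonal_eq_sum_range_succ
    (fun i j => R.coeff i * (v 0 ^ i * v 1 ^ j)), Finset.sum_range]
  rfl

variable [AdmissibleAbsValues K]

theorem exists_logHeight_eval_le {ι : Type*} [Finite ι] (q : ι → K[X]) :
    ∃ (e : ℕ) (C : ℝ), ∀ t : K,
      logHeight (fun i => (q i).eval t) ≤ e * pointHeight (t : OnePoint K) + C := by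
  cases nonempty_fintype ι
  set e := Finset.univ.sup fun i => (q i).natDegree with he
  obtain ⟨C, hC⟩ := logHeight_eval_le' (p := fun i => (q i).homogenize e) (N := e)
    fun i => isHomogeneous_homogenize _
  refine ⟨e, C, fun t => ?_⟩
  have h := hC (rep (t : OnePoint K))
  have hq : (fun i => MvPolynomial.eval (rep (t : OnePoint K)) ((q i).homogenize e)) =
      fun i => (q i).eval t :=
    funext fun i => form_coe (q i) (Finset.le_sup (f := fun i => (q i).natDegree) (Finset.mem_univ i)) t
  rw [hq] at h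
  show _ ≤ _ * logHeight _ + C
  linarith

theorem exists_logHeight_mono_le (d : ℕ) :
    ∃ C : ℝ, ∀ v : Fin 2 → K, logHeight (mono d v) ≤ d * logHeight v + C := by
  obtain ⟨C, hC⟩ := logHeight_eval_le' (K := K) (N := d)
    (p := fun i : Fin (d + 1) =>
      (MvPolynomial.X (0 : Fin 2) : MvPolynomial (Fin 2) K) ^ (i : ℕ) *
        MvPolynomial.X (1 : Fin 2) ^ (d - i))
    fun i => by
      have h := ((MvPolynomial.isHomogeneous_X K (0 : Fin 2)).pow (i : ℕ)).mul
        ((MvPolynomial.isHomogeneous_X K (1 : Fin 2)).pow (d - i))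
      rwa [one_mul, one_mul, Nat.add_sub_of_le (Nat.le_of_lt_succ i.2)] at h
  refine ⟨C, fun v => ?_⟩
  have h := hC v
  simp only [map_mul, map_pow, MvPolynomial.eval_X] at h
  show logHeight (fun i : Fin (d + 1) => v 0 ^ (i : ℕ) * v 1 ^ (d - i)) ≤ _
  linarith

/-- The forms of a family have height at most `d` times that of the point and `O (1 + h t)`. -/
theorem exists_logHeight_forms_le {ι : Type*} [Finite ι] (R : ι → K[X][X]) (d : ℕ) :
    ∃ (e : ℕ) (C : ℝ), ∀ (t : K) (v : Fin 2 → K),
      logHeight (fun j => form (specT t (R j)) d v) ≤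
        d * logHeight v + e * pointHeight (t : OnePoint K) + C := by
  obtain ⟨e, C₁, hC₁⟩ := exists_logHeight_eval_le fun a : ι × Fin (d + 1) => (R a.1).coeff a.2
  obtain ⟨C₂, hC₂⟩ := exists_logHeight_mono_le (K := K) d
  refine ⟨e, totalWeight K * Real.log (Nat.card (Fin (d + 1))) + C₁ + C₂, fun t v => ?_⟩
  have h := logHeight_linearMap_apply_le
    (fun a : ι × Fin (d + 1) => ((R a.1).coeff a.2).eval t) (mono d v)
  simp_rw [form_eq_dot, coeff_specT]
  linarith [hC₁ t, hC₂ v]

omit [AdmissibleAbsValues K] in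
/-- A polynomial over `K(T)` is a multiple of one over `K[T]`. -/
theorem exists_clear (p : (RatFunc K)[X]) : ∃ c : K[X], c ≠ 0 ∧ ∃ p' : K[X][X],
    p'.map (algebraMap K[X] (RatFunc K)) = Polynomial.C (algebraMap K[X] (RatFunc K) c) * p := by
  obtain ⟨c, hc, h⟩ := IsLocalization.integerNormalization_spec (nonZeroDivisors K[X]) p
  exact ⟨c, nonZeroDivisors.ne_zero hc, _, by
    rw [h, Algebra.smul_def, Polynomial.algebraMap_apply]⟩

omit [AdmissibleAbsValues K] in
/-- A cleared identity of Bézout. -/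
theorem exists_identity {P Q : K[X][X]}
    (hc : IsCoprime (P.map (algebraMap K[X] (RatFunc K))) (Q.map (algebraMap K[X] (RatFunc K))))
    {d : ℕ} (hd : degree (P.map (algebraMap K[X] (RatFunc K)))
      (Q.map (algebraMap K[X] (RatFunc K))) = d) {m : ℕ} (hm : m ≤ 2 * d) :
    ∃ c : K[X], c ≠ 0 ∧ ∃ a b : K[X][X], a.natDegree ≤ d ∧ b.natDegree ≤ d ∧
      a * P + b * Q = Polynomial.C c * X ^ m := by
  set g := algebraMap K[X] (RatFunc K)
  have hg : Function.Injective g := RatFunc.algebraMap_injective K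
  obtain ⟨a, b, ha, hb, hab⟩ := exists_combination hc (R := X ^ m) (by rw [natDegree_X_pow, hd]; exact hm)
  rw [hd] at ha hb
  obtain ⟨ca, hca, a', ha'⟩ := exists_clear a
  obtain ⟨cb, hcb, b', hb'⟩ := exists_clear b
  have hdeg : ∀ (c : K[X]) (p' : K[X][X]) (p : (RatFunc K)[X]),
      p'.map g = Polynomial.C (g c) * p → p.natDegree ≤ d → p'.natDegree ≤ d := fun c p' p e h => by
    rw [← natDegree_map_eq_of_injective hg p', e]
    exact (natDegree_C_mul_le _ _).trans h
  replace ha' : a'.map g = Polynomial.C (g ca) * a := ha'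
  replace hb' : b'.map g = Polynomial.C (g cb) * b := hb'
  refine ⟨ca * cb, mul_ne_zero hca hcb, Polynomial.C cb * a', Polynomial.C ca * b',
    (natDegree_C_mul_le _ _).trans (hdeg ca a' a ha' ha),
    (natDegree_C_mul_le _ _).trans (hdeg cb b' b hb' hb), map_injective g hg ?_⟩
  simp only [Polynomial.map_add, Polynomial.map_mul, Polynomial.map_pow, map_C, map_X, map_mul,
    ha', hb', ← hab]
  ring

/-- **The uniform bound.** -/
theorem exists_uniform {P Q : K[X][X]}
    (hc : IsCoprime (P.map (algebraMap K[X] (RatFunc K))) (Q.map (algebraMap K[X] (RatFunc K))))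
    {d : ℕ} (hd : degree (P.map (algebraMap K[X] (RatFunc K)))
      (Q.map (algebraMap K[X] (RatFunc K))) = d) :
    ∃ (C : ℝ) (S : Set K), 0 ≤ C ∧ S.Finite ∧ ∀ t ∉ S,
      IsCoprime (specT t P) (specT t Q) ∧ degree (specT t P) (specT t Q) = d ∧
      ∀ y : OnePoint K, |pointHeight (ratApply (specT t P) (specT t Q) y) - d * pointHeight y| ≤
        C * (1 + pointHeight (t : OnePoint K)) := by
  have hg : Function.Injective (algebraMap K[X] (RatFunc K)) := RatFunc.algebraMap_injective K
  obtain ⟨c₀, hc₀, a₀, b₀, ha₀, hb₀, h₀⟩ := exists_identity hc hd (le_refl (2 * d))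
  obtain ⟨c₁, hc₁, a₁, b₁, ha₁, hb₁, h₁⟩ := exists_identity hc hd (Nat.zero_le (2 * d))
  rw [pow_zero, mul_one] at h₁
  have hPd : P.natDegree ≤ d := by
    rw [← natDegree_map_eq_of_injective hg P, ← hd]; exact natDegree_left_le _ _
  have hQd : Q.natDegree ≤ d := by
    rw [← natDegree_map_eq_of_injective hg Q, ← hd]; exact natDegree_right_le _ _
  obtain ⟨L, hL, hL'⟩ : ∃ L : K[X], L ≠ 0 ∧ (L = P.coeff d ∨ L = Q.coeff d) := by
    have h := coeff_degree_ne_zero hc
    rw [hd, coeff_map, coeff_map] at h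
    rcases h with h | h
    · exact ⟨_, fun e => h (by rw [e, map_zero]), Or.inl rfl⟩
    · exact ⟨_, fun e => h (by rw [e, map_zero]), Or.inr rfl⟩
  obtain ⟨e₁, C₁, hC₁⟩ := exists_logHeight_forms_le ![P, Q] d
  obtain ⟨e₂, C₂, hC₂⟩ := exists_logHeight_forms_le
    (fun k : Fin 2 × Fin 2 => ![![Polynomial.C c₁ * a₀, Polynomial.C c₁ * b₀],
      ![Polynomial.C c₀ * a₁, Polynomial.C c₀ * b₁]] k.1 k.2) d
  set w : ℝ := totalWeight K * Real.log (Nat.card (Fin 2))
  refine ⟨|C₁| + |C₂| + |w| + e₁ + e₂, {t | (c₀ * c₁ * L).IsRoot t}, by positivity,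
    finite_setOfPred_isRoot (mul_ne_zero (mul_ne_zero hc₀ hc₁) hL), fun t ht => ?_⟩
  simp only [Set.mem_ofPred_eq, IsRoot.def, eval_mul, mul_eq_zero, not_or] at ht
  obtain ⟨⟨ht₀, ht₁⟩, htL⟩ := ht
  have hcop : IsCoprime (specT t P) (specT t Q) := by
    refine ⟨Polynomial.C (c₁.eval t)⁻¹ * specT t a₁, Polynomial.C (c₁.eval t)⁻¹ * specT t b₁, ?_⟩
    have h := congrArg (specT t) h₁
    rw [map_add, map_mul, map_mul, specT, coe_mapRingHom, map_C, coe_evalRingHom] at h
    rw [mul_assoc, mul_assoc, ← mul_add]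
    simp only [specT, coe_mapRingHom]
    rw [h, ← C_mul, inv_mul_cancel₀ ht₁, C_1]
  have hdeg : degree (specT t P) (specT t Q) = d := by
    refine le_antisymm (max_le (natDegree_specT_le t hPd) (natDegree_specT_le t hQd)) ?_
    rcases hL' with e | e <;> subst e
    · exact (le_natDegree_of_ne_zero (by rwa [coeff_specT])).trans (le_max_left _ _)
    · exact (le_natDegree_of_ne_zero (by rwa [coeff_specT])).trans (le_max_right _ _)
  refine ⟨hcop, hdeg, fun y => ?_⟩
  set v := rep y
  obtain ⟨u, hu, he⟩ := exists_smul_rep (forms_ne_zero hcop (rep_ne_zero y))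
  rw [pointHeight, ratApply, he, logHeight_smul_eq_logHeight _ hu, hdeg, pointHeight]
  set p : Fin 2 → K := ![form (specT t P) d v, form (specT t Q) d v]
  have hup : logHeight p ≤ d * logHeight v + e₁ * pointHeight (t : OnePoint K) + C₁ := by
    refine le_of_eq_of_le (congrArg _ (funext fun j => ?_)) (hC₁ t v)
    fin_cases j <;> rfl
  have key : (fun k : Fin 2 => ∑ j, form (specT t (![![Polynomial.C c₁ * a₀, Polynomial.C c₁ * b₀],
      ![Polynomial.C c₀ * a₁, Polynomial.C c₀ * b₁]] k j)) d v * p j) =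
      (c₀.eval t * c₁.eval t) • v ^ (2 * d) := by
    have h : ∀ {a b : K[X][X]} {c c' : K[X]} {m : ℕ}, a.natDegree ≤ d → b.natDegree ≤ d → m ≤ 2 * d →
        a * P + b * Q = Polynomial.C c * X ^ m →
        form (specT t (Polynomial.C c' * a)) d v * form (specT t P) d v +
          form (specT t (Polynomial.C c' * b)) d v * form (specT t Q) d v =
          c'.eval t * c.eval t * (v 0 ^ m * v 1 ^ (2 * d - m)) := by
      intro a b c c' m ha hb hm e
      have e' : specT t (Polynomial.C c' * a) * specT t P + specT t (Polynomial.C c' * b) * specT t Q =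
          Polynomial.C (c'.eval t * c.eval t) * X ^ m := by
        rw [← map_mul, ← map_mul, ← map_add, mul_assoc, mul_assoc, ← mul_add, e, ← mul_assoc,
          ← C_mul, map_mul, map_pow]
        simp [specT]
      have e'' := congrArg (fun R => form R (d + d) v) e'
      simp only [form, homogenize_add, homogenize_C_mul, homogenize_X_pow (show m ≤ d + d by omega),
        homogenize_mul _ _ (natDegree_specT_le t ((natDegree_C_mul_le c' a).trans ha))
          (natDegree_specT_le t hPd),
        homogenize_mul _ _ (natDegree_specT_le t ((natDegree_C_mul_le c' b).trans hb))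
          (natDegree_specT_le t hQd)] at e''
      simp only [map_add, map_mul, map_pow, MvPolynomial.eval_C, MvPolynomial.eval_X] at e'' ⊢
      rw [show d + d - m = 2 * d - m by omega] at e''
      exact e''
    funext k
    fin_cases k
    · simp only [Fin.sum_univ_two, p]
      refine (h ha₀ hb₀ le_rfl h₀).trans ?_
      simp [mul_comm]
    · simp only [Fin.sum_univ_two, p]
      refine (h ha₁ hb₁ (Nat.zero_le _) (by rw [pow_zero, mul_one]; exact h₁)).trans ?_
      simp
  have hlow : 2 * d * logHeight v ≤ w + (d * logHeight v + e₂ * pointHeight (t : OnePoint K) + C₂) +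
      logHeight p := by
    have h := logHeight_linearMap_apply_le
      (fun a : Fin 2 × Fin 2 => form (specT t (![![Polynomial.C c₁ * a₀, Polynomial.C c₁ * b₀],
      ![Polynomial.C c₀ * a₁, Polynomial.C c₀ * b₁]] a.1 a.2)) d v) p
    rw [key, logHeight_smul_eq_logHeight _ (mul_ne_zero ht₀ ht₁), logHeight_pow] at h
    push_cast at h
    linarith [hC₂ t v]
  have hh : 0 ≤ pointHeight (t : OnePoint K) := logHeight_nonneg _
  rw [abs_le]
  constructor <;>
    nlinarith [le_abs_self C₁, le_abs_self C₂, le_abs_self w, abs_nonneg C₁, abs_nonneg C₂,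
      abs_nonneg w, mul_nonneg (Nat.cast_nonneg (α := ℝ) e₁) hh,
      mul_nonneg (Nat.cast_nonneg (α := ℝ) e₂) hh, Nat.cast_nonneg (α := ℝ) e₁, Nat.cast_nonneg (α := ℝ) e₂]

end FA.CallSilverman
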